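/-
S24 (helper6): the analytic `j`-function `J = E₄³/Δ` on the upper half-plane, and the
classical fact that an `SL(2,ℤ)`-invariant holomorphic function on `ℍ` of moderate growth at
`i∞` is a polynomial in `J`.
-/
import Mathlib
import Fermat.Agent.S20.LevelOne

set_option autoImplicit false

noncomputable section

namespace Fermat.Agent.S24.H6

open UpperHalfPlane ModularForm Filter
open scoped MatrixGroups ModularForm Manifold Topology

/-- Klein's `j`-function `J = E₄³/Δ` (so that `J = q⁻¹ + 744 + ⋯`). -/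
def kleinJ (τ : ℍ) : ℂ := E₄ τ ^ 3 / discriminant τ

theorem discriminant_mul_kleinJ (τ : ℍ) : discriminant τ * kleinJ τ = E₄ τ ^ 3 := by
  rw [kleinJ, mul_div_cancel₀ _ (discriminant_ne_zero τ)]

theorem mdiff_discriminant : MDiff (discriminant : ℍ → ℂ) := CuspForm.discriminant.holo'

theorem mdiff_inv_of_ne_zero {f : ℍ → ℂ} (hf : MDiff f) (h0 : ∀ τ, f τ ≠ 0) :
    MDiff (fun τ => (f τ)⁻¹) := by
  rw [UpperHalfPlane.mdifferentiable_iff] at hf ⊢
  intro z hz
  have h1 := hf z hz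
  have h2 : (f ∘ ofComplex) z ≠ 0 := h0 _
  exact (h1.inv h2).congr (fun w _ => rfl) rfl

theorem mdiff_kleinJ : MDiff kleinJ := by
  have h1 : MDiff (fun τ : ℍ => E₄ τ ^ 3) := (E₄.holo').pow 3
  have h2 := mdiff_inv_of_ne_zero mdiff_discriminant discriminant_ne_zero
  have h3 := h1.mul h2
  have h4 : kleinJ = (fun τ : ℍ => E₄ τ ^ 3) * fun τ => (discriminant τ)⁻¹ := by
    ext τ
    simp [kleinJ, div_eq_mul_inv]
  rw [h4]
  exact h3

/-- Transformation of `Δ` under `SL(2,ℤ)`. -/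
theorem discriminant_smul (γ : SL(2, ℤ)) (τ : ℍ) :
    discriminant (γ • τ) = denom γ τ ^ 12 * discriminant τ := by
  have h := congrFun (CuspForm.discriminant.slash_action_eq' _ ⟨γ, rfl⟩) τ
  have h' : ((discriminant : ℍ → ℂ) ∣[(12 : ℤ)] γ) τ = discriminant τ := h
  rw [SL_slash_apply] at h'
  have hd : denom γ τ ≠ 0 := denom_ne_zero γ τ
  rw [← h']
  rw [mul_comm, mul_assoc, ← zpow_natCast, ← zpow_add₀ hd]
  simp

/-- Transformation of `E₄` under `SL(2,ℤ)`. -/
theorem E₄_smul (γ : SL(2, ℤ)) (τ : ℍ) : E₄ (γ • τ) = denom γ τ ^ 4 * E₄ τ := by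
  have h := congrFun (E₄.slash_action_eq' _ ⟨γ, rfl⟩) τ
  have h' : ((E₄ : ℍ → ℂ) ∣[(4 : ℤ)] γ) τ = E₄ τ := h
  rw [SL_slash_apply] at h'
  have hd : denom γ τ ≠ 0 := denom_ne_zero γ τ
  rw [← h']
  rw [mul_comm, mul_assoc, ← zpow_natCast, ← zpow_add₀ hd]
  simp

/-- `J` is `SL(2,ℤ)`-invariant. -/
theorem kleinJ_smul (γ : SL(2, ℤ)) (τ : ℍ) : kleinJ (γ • τ) = kleinJ τ := by
  have hd : denom γ τ ≠ 0 := denom_ne_zero γ τ
  rw [kleinJ, kleinJ, discriminant_smul, E₄_smul]
  have hΔ := discriminant_ne_zero τ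
  field_simp

/-- Weight-`0` invariance of `f` gives weight-`12 M` invariance of `Δ ^ M * f`. -/
theorem slash_disc_pow_mul {f : ℍ → ℂ} (hinv : ∀ (γ : SL(2, ℤ)) (τ : ℍ), f (γ • τ) = f τ)
    (M : ℕ) (γ : SL(2, ℤ)) :
    (fun τ => discriminant τ ^ M * f τ) ∣[(12 * (M : ℤ))] γ =
      fun τ => discriminant τ ^ M * f τ := by
  ext τ
  rw [SL_slash_apply]
  rw [discriminant_smul, hinv]
  have hd : denom γ τ ≠ 0 := denom_ne_zero γ τ
  rw [mul_pow, ← pow_mul]
  have h1 : (denom γ τ) ^ (12 * M) * (denom γ τ) ^ (-(12 * (M : ℤ))) = 1 := by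
    rw [← zpow_natCast, ← zpow_add₀ hd]
    simp
  linear_combination (discriminant τ ^ M * f τ) * h1

/-- **Polynomials in `J`.** A holomorphic `SL(2,ℤ)`-invariant function `f` on `ℍ` such that
`Δ ^ M * f` is bounded at `i∞` is a polynomial of degree `≤ M` in `J`. -/
theorem exists_poly_of_invariant (M : ℕ) : ∀ (f : ℍ → ℂ), MDiff f →
    (∀ (γ : SL(2, ℤ)) (τ : ℍ), f (γ • τ) = f τ) →
    IsBoundedAtImInfty (fun τ => discriminant τ ^ M * f τ) →
    ∃ P : Polynomial ℂ, P.natDegree ≤ M ∧ ∀ τ, f τ = P.eval (kleinJ τ) := by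
  induction M with
  | zero =>
    intro f hf hinv hb
    have hb' : IsBoundedAtImInfty f := by simpa using hb
    obtain ⟨r, hr⟩ := Fermat.Agent.S20.levelOne_of_invariant (m := 0) hf (fun g => by
      ext τ
      rw [SL_slash_apply, hinv]
      simp) hb'
    obtain ⟨c, hc⟩ := Fermat.Agent.S20.levelOne_weight_zero r
    refine ⟨Polynomial.C c, by simp, fun τ => ?_⟩
    rw [Polynomial.eval_C, ← hc τ, hr]
  | succ M ih =>
    intro f hf hinv hb
    set u : ℍ → ℂ := fun τ => discriminant τ ^ (M + 1) * f τ with hu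
    have hu_hol : MDiff u := (mdiff_discriminant.pow (M + 1)).mul hf
    have hu_inv : ∀ g : SL(2, ℤ), u ∣[(12 * ((M + 1 : ℕ) : ℤ))] g = u :=
      fun g => slash_disc_pow_mul hinv (M + 1) g
    obtain ⟨r, hr⟩ := Fermat.Agent.S20.levelOne_of_invariant hu_hol hu_inv hb
    set c : ℂ := valueAtInfty r with hc
    have hr_tend : Tendsto u atImInfty (𝓝 c) := hr ▸ Fermat.Agent.S20.levelOne_tendsto r
    set f' : ℍ → ℂ := fun τ => f τ - c * kleinJ τ ^ (M + 1) with hf'
    have hf'_hol : MDiff f' :=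
      hf.sub (mdifferentiable_const.mul (mdiff_kleinJ.pow (M + 1)))
    have hf'_inv : ∀ (γ : SL(2, ℤ)) (τ : ℍ), f' (γ • τ) = f' τ := fun γ τ => by
      change f (γ • τ) - c * kleinJ (γ • τ) ^ (M + 1) = f τ - c * kleinJ τ ^ (M + 1)
      rw [hinv, kleinJ_smul]
    set u' : ℍ → ℂ := fun τ => discriminant τ ^ (M + 1) * f' τ with hu'
    have hu'_eq : ∀ τ, u' τ = u τ - c * E₄ τ ^ (3 * (M + 1)) := fun τ => by
      simp only [hu', hf', hu]
      rw [pow_mul, ← discriminant_mul_kleinJ τ, mul_pow]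
      ring
    have hu'_zero : IsZeroAtImInfty u' := by
      have h1 : Tendsto (fun τ => u τ - c * E₄ τ ^ (3 * (M + 1))) atImInfty
          (𝓝 (c - c * 1 ^ (3 * (M + 1)))) :=
        hr_tend.sub ((Fermat.Agent.S20.H61.E₄_tendsto_one.pow _).const_mul c)
      rw [one_pow, mul_one, sub_self] at h1
      exact h1.congr fun τ => (hu'_eq τ).symm
    have hu'_hol : MDiff u' := (mdiff_discriminant.pow (M + 1)).mul hf'_hol
    have hu'_inv : ∀ g : SL(2, ℤ), u' ∣[(12 * ((M + 1 : ℕ) : ℤ))] g = u' :=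
      fun g => slash_disc_pow_mul hf'_inv (M + 1) g
    obtain ⟨r', hr'⟩ := Fermat.Agent.S20.levelOne_cusp_of_invariant hu'_hol hu'_inv hu'_zero
    have hb' : IsBoundedAtImInfty (fun τ => discriminant τ ^ M * f' τ) := by
      have h2 : (fun τ => discriminant τ ^ M * f' τ) = ⇑r' := by
        ext τ
        have h3 := hr' τ
        simp only [hu'] at h3
        have hΔ := discriminant_ne_zero τ
        rw [pow_succ, mul_comm (discriminant τ ^ M), mul_assoc] at h3
        exact mul_left_cancel₀ hΔ h3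
      rw [h2]
      have : Fact (IsCusp OnePoint.infty 𝒮ℒ) :=
        ⟨Subgroup.isCusp_of_mem_strictPeriods one_pos one_mem_strictPeriods_SL⟩
      exact ModularFormClass.bdd_at_infty r'
    obtain ⟨P', hP'deg, hP'⟩ := ih f' hf'_hol hf'_inv hb'
    refine ⟨P' + Polynomial.C c * Polynomial.X ^ (M + 1), ?_, fun τ => ?_⟩
    · refine (Polynomial.natDegree_add_le _ _).trans (max_le (hP'deg.trans (Nat.le_succ M)) ?_)
      exact Polynomial.natDegree_C_mul_X_pow_le c (M + 1)
    · have h4 := hP' τ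
      simp only [hf'] at h4
      rw [Polynomial.eval_add, Polynomial.eval_mul, Polynomial.eval_C, Polynomial.eval_pow,
        Polynomial.eval_X, ← h4]
      ring

end Fermat.Agent.S24.H6
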