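/-
S24 (helper6): functions on the upper half-plane of the form `τ ↦ g (q(τ))`, `q = e^{2πiτ}`,
for `g` holomorphic on the unit disc.  They are "nice" (1-periodic, holomorphic, bounded at
`i∞`), their cusp function is `g`, and their `q`-expansion is the Taylor series of `g` at `0`.
Also: Taylor coefficients of locally uniform limits of holomorphic functions (Weierstrass).
-/
import Mathlib
import Fermat.Agent.S23.Nice

set_option autoImplicit false

noncomputable section

namespace Fermat.Agent.S24.H6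

open UpperHalfPlane Filter Function Complex
open scoped MatrixGroups ModularForm Manifold Topology

local notation "𝕢" => Periodic.qParam

/-- Pull back a function of `q` to the upper half-plane via `q = e^{2πiτ}`. -/
def pullQ (g : ℂ → ℂ) : ℍ → ℂ := fun τ => g (𝕢 1 τ)

@[simp] theorem pullQ_apply (g : ℂ → ℂ) (τ : ℍ) : pullQ g τ = g (𝕢 1 τ) := rfl

theorem norm_qParam_lt_one (τ : ℍ) : ‖𝕢 1 (τ : ℂ)‖ < 1 :=
  Periodic.norm_qParam_lt_one one_pos τ.im_pos

theorem qParam_mem_ball (τ : ℍ) : 𝕢 1 (τ : ℂ) ∈ Metric.ball (0 : ℂ) 1 := by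
  simpa using norm_qParam_lt_one τ

/-- The cusp function of `τ ↦ g (q(τ))` is `g` on the unit disc. -/
theorem cuspFunction_pullQ {g : ℂ → ℂ} (hg : ContinuousAt g 0) :
    Set.EqOn (cuspFunction 1 (pullQ g)) g (Metric.ball 0 1) := by
  have key : ∀ q : ℂ, q ≠ 0 → ‖q‖ < 1 → cuspFunction 1 (pullQ g) q = g q := by
    intro q hq0 hq1
    have him := Periodic.im_invQParam_pos_of_norm_lt_one one_pos hq1 hq0
    rw [cuspFunction, Periodic.cuspFunction_eq_of_nonzero _ _ hq0]
    simp only [Function.comp_apply, ofComplex_apply_of_im_pos him, pullQ]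
    congr 1
    exact Periodic.qParam_right_inv one_ne_zero hq0
  intro q hq
  have hq1 : ‖q‖ < 1 := by simpa using hq
  by_cases hq0 : q = 0
  · subst hq0
    rw [cuspFunction, Periodic.cuspFunction_zero_eq_limUnder_nhds_ne]
    apply Filter.Tendsto.limUnder_eq
    have h1 : Tendsto g (𝓝[≠] 0) (𝓝 (g 0)) := hg.tendsto.mono_left nhdsWithin_le_nhds
    refine h1.congr' ?_
    have h2 : ∀ᶠ q in 𝓝[≠] (0 : ℂ), q ∈ Metric.ball (0 : ℂ) 1 :=
      nhdsWithin_le_nhds (Metric.ball_mem_nhds 0 one_pos)
    have h3 : ∀ᶠ q in 𝓝[≠] (0 : ℂ), q ≠ 0 := eventually_mem_nhdsWithin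
    filter_upwards [h2, h3] with q hq hq0
    exact (key q hq0 (by simpa using hq)).symm
  · exact key q hq0 hq1

/-- `τ ↦ g (q(τ))` is nice when `g` is holomorphic on the unit disc. -/
theorem nice_pullQ {g : ℂ → ℂ} (hg : DifferentiableOn ℂ g (Metric.ball 0 1)) :
    Fermat.Agent.S23.Nice (pullQ g) where
  per := by
    intro z
    simp only [Function.comp_apply]
    by_cases hz : 0 < z.im
    · have hz' : 0 < (z + 1).im := by simpa using hz
      rw [ofComplex_apply_of_im_pos hz', ofComplex_apply_of_im_pos hz]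
      simp only [pullQ]
      congr 1
      simp only [Periodic.qParam, ofReal_one, div_one]
      rw [mul_add, Complex.exp_add, mul_one, Complex.exp_two_pi_mul_I, mul_one]
    · have hz1 : z.im ≤ 0 := not_lt.mp hz
      have hz' : (z + 1).im ≤ 0 := by simpa using hz1
      rw [ofComplex_apply_of_im_nonpos hz', ofComplex_apply_of_im_nonpos hz1]
  holo := by
    rw [UpperHalfPlane.mdifferentiable_iff]
    have h1 : DifferentiableOn ℂ (fun z : ℂ => g (𝕢 1 z)) {z | 0 < z.im} := by
      refine hg.comp (f := fun z : ℂ => 𝕢 1 z) ?_ ?_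
      · exact (Periodic.differentiable_qParam (h := 1)).differentiableOn
      · intro z hz
        simpa using Periodic.norm_qParam_lt_one one_pos hz
    refine h1.congr fun z hz => ?_
    simp [pullQ, ofComplex_apply_of_im_pos hz]
  bdd := by
    have hcont : ContinuousAt g 0 :=
      (hg.differentiableAt (Metric.ball_mem_nhds 0 one_pos)).continuousAt
    have h1 : Tendsto (pullQ g) atImInfty (𝓝 (g 0)) :=
      hcont.tendsto.comp (qParam_tendsto_atImInfty one_pos)
    exact h1.isBigO_one ℝ

/-- The `q`-expansion of `τ ↦ g (q(τ))` is the Taylor series of `g` at `0`. -/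
theorem qExpansion_pullQ_coeff {g : ℂ → ℂ} (hg : ContinuousAt g 0) (n : ℕ) :
    (qExpansion 1 (pullQ g)).coeff n = (↑n.factorial)⁻¹ * iteratedDeriv n g 0 := by
  rw [qExpansion_coeff]
  congr 1
  apply Filter.EventuallyEq.iteratedDeriv_eq
  exact Filter.eventuallyEq_of_mem (Metric.ball_mem_nhds 0 one_pos) (cuspFunction_pullQ hg)

end Fermat.Agent.S24.H6
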