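/-
S24 (helper6): the analytic infinite product `∏ (1 - q^(n+1))` has Taylor series at `0` equal to
the formal infinite product `∏' (1 - X^(n+1))` of the Prelude (`ModularCurve.etaProd`).
Method: Weierstrass (Taylor coefficients of a locally uniform limit of holomorphic functions are
the limits of the Taylor coefficients) applied to the partial products.
-/
import Mathlib
import Fermat.Prelude.Def_ModularCurve_X0
import Fermat.Agent.S24.H6.PullQ

set_option autoImplicit false

noncomputable section

namespace Fermat.Agent.S24.H6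

open Filter Function Complex
open scoped Topology PowerSeries.WithPiTopology

/-- Weierstrass: iterated derivatives of a locally uniform limit of holomorphic functions. -/
theorem tendstoLocallyUniformlyOn_iteratedDeriv {ι : Type*} {φ : Filter ι} {F : ι → ℂ → ℂ}
    {f : ℂ → ℂ} {U : Set ℂ} (hU : IsOpen U) (hf : TendstoLocallyUniformlyOn F f φ U)
    (hF : ∀ᶠ i in φ, DifferentiableOn ℂ (F i) U) (n : ℕ) :
    TendstoLocallyUniformlyOn (fun i => iteratedDeriv n (F i)) (iteratedDeriv n f) φ U ∧
      ∀ᶠ i in φ, DifferentiableOn ℂ (iteratedDeriv n (F i)) U := by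
  induction n with
  | zero => simpa [iteratedDeriv_zero] using And.intro hf hF
  | succ n ih =>
    obtain ⟨h1, h2⟩ := ih
    refine ⟨?_, ?_⟩
    · have h3 := h1.deriv h2 hU
      simpa [Function.comp_def, iteratedDeriv_succ] using h3
    · filter_upwards [h2] with i hi
      rw [iteratedDeriv_succ]
      exact hi.deriv hU

/-- Iterated derivatives of a polynomial function. -/
theorem iteratedDeriv_polynomial (n : ℕ) : ∀ p : Polynomial ℂ,
    iteratedDeriv n (fun q => p.eval q) = fun q => (Polynomial.derivative^[n] p).eval q := by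
  induction n with
  | zero => intro p; simp
  | succ n ih =>
    intro p
    rw [iteratedDeriv_succ']
    have h1 : deriv (fun q => p.eval q) = fun q => (Polynomial.derivative p).eval q := by
      funext x
      exact Polynomial.deriv p
    rw [h1, ih, Function.iterate_succ_apply]

theorem iteratedDeriv_polynomial_zero (n : ℕ) (p : Polynomial ℂ) :
    iteratedDeriv n (fun q => p.eval q) 0 = (n.factorial : ℂ) * p.coeff n := by
  rw [iteratedDeriv_polynomial]
  simp only
  rw [← Polynomial.coeff_zero_eq_eval_zero, Polynomial.coeff_iterate_derivative, zero_add,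
    Nat.descFactorial_self, nsmul_eq_mul]

/-- The partial products of the Euler product, as integer polynomials. -/
def etaPoly (m : ℕ) : Polynomial ℤ := ∏ i ∈ Finset.range m, (1 - Polynomial.X ^ (i + 1))

theorem etaPoly_coe (m : ℕ) :
    ((etaPoly m : Polynomial ℤ) : PowerSeries ℤ) =
      ∏ i ∈ Finset.range m, (1 - PowerSeries.X ^ (i + 1)) := by
  rw [etaPoly, ← Polynomial.coeToPowerSeries.ringHom_apply, map_prod]
  simp

theorem etaPoly_eval (m : ℕ) (q : ℂ) :
    ((etaPoly m).map (Int.castRingHom ℂ)).eval q = ∏ i ∈ Finset.range m, (1 - q ^ (i + 1)) := by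
  simp [etaPoly, Polynomial.map_prod, Polynomial.eval_prod]

theorem eventually_coeff_etaPoly (n : ℕ) :
    ∀ᶠ m in atTop, (etaPoly m).coeff n = PowerSeries.coeff n ModularCurve.etaProd := by
  have h1 : Tendsto (fun m => ∏ i ∈ Finset.range m, ((1 : PowerSeries ℤ) - PowerSeries.X ^ (i + 1)))
      atTop (𝓝 ModularCurve.etaProd) :=
    (PowerSeries.WithPiTopology.multipliable_one_sub_X_pow ℤ).hasProd.tendsto_prod_nat
  have h2 := ((PowerSeries.WithPiTopology.continuous_coeff ℤ n).tendsto _).comp h1
  rw [nhds_discrete, tendsto_pure] at h2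
  filter_upwards [h2] with m hm
  rw [← hm, Function.comp_apply, ← etaPoly_coe, Polynomial.coeff_coe]

/-- The analytic Euler product `∏ (1 - q^(n+1))` on the unit disc. -/
def eulerFun (q : ℂ) : ℂ := ∏' n : ℕ, (1 - q ^ (n + 1))

theorem differentiableOn_eulerFun : DifferentiableOn ℂ eulerFun (Metric.ball 0 1) :=
  ModularForm.differentiableOn_tprod_one_sub_pow

theorem continuousAt_eulerFun : ContinuousAt eulerFun 0 :=
  (differentiableOn_eulerFun.differentiableAt (Metric.ball_mem_nhds 0 one_pos)).continuousAt

/-- Taylor coefficients of the analytic Euler product are the coefficients of the formal one. -/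
theorem iteratedDeriv_eulerFun (n : ℕ) :
    iteratedDeriv n eulerFun 0 =
      (n.factorial : ℂ) * ((PowerSeries.coeff n ModularCurve.etaProd : ℤ) : ℂ) := by
  have hU : IsOpen (Metric.ball (0 : ℂ) 1) := Metric.isOpen_ball
  have h1 : TendstoLocallyUniformlyOn
      (fun m (q : ℂ) => ∏ i ∈ Finset.range m, (1 - q ^ (i + 1))) eulerFun atTop
      (Metric.ball (0 : ℂ) 1) :=
    ModularForm.multipliableLocallyUniformlyOn_one_sub_pow.hasProdLocallyUniformlyOn.tendstoLocallyUniformlyOn_finsetRange
  have h2 : ∀ᶠ m in atTop, DifferentiableOn ℂ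
      (fun q : ℂ => ∏ i ∈ Finset.range m, (1 - q ^ (i + 1))) (Metric.ball (0 : ℂ) 1) :=
    .of_forall fun m => by fun_prop
  have h3 := (tendstoLocallyUniformlyOn_iteratedDeriv hU h1 h2 n).1.tendsto_at
    (Metric.mem_ball_self one_pos)
  have h4 : ∀ᶠ m in atTop,
      iteratedDeriv n (fun q : ℂ => ∏ i ∈ Finset.range m, (1 - q ^ (i + 1))) 0 =
        (n.factorial : ℂ) * ((PowerSeries.coeff n ModularCurve.etaProd : ℤ) : ℂ) := by
    filter_upwards [eventually_coeff_etaPoly n] with m hm
    have h5 : (fun q : ℂ => ∏ i ∈ Finset.range m, (1 - q ^ (i + 1))) =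
        fun q => ((etaPoly m).map (Int.castRingHom ℂ)).eval q := by
      funext q
      rw [etaPoly_eval]
    rw [h5, iteratedDeriv_polynomial_zero, Polynomial.coeff_map, hm]
    simp
  exact tendsto_nhds_unique h3 (tendsto_const_nhds.congr' (h4.mono fun m hm => hm.symm))

/-- **The `q`-expansion of the analytic Euler product is the formal Euler product.** -/
theorem qExpansion_pullQ_eulerFun :
    UpperHalfPlane.qExpansion 1 (pullQ eulerFun) =
      ModularCurve.etaProd.map (Int.castRingHom ℂ) := by
  ext n
  rw [qExpansion_pullQ_coeff continuousAt_eulerFun, iteratedDeriv_eulerFun, PowerSeries.coeff_map]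
  have hn : (n.factorial : ℂ) ≠ 0 := by exact_mod_cast n.factorial_ne_zero
  simp [hn]

end Fermat.Agent.S24.H6
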