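/-
S24 (helper6), package J2: the `q`-expansions of `E₄`, `Δ` and of Klein's `J = E₄³/Δ` are the
formal series of the Prelude (`ModularCurve.eisenstein4`, `X * ModularCurve.dedekindEtaUnit`,
`ModularCurve.jNum`): the formal `jq = q⁻¹ * jNum` is the `q`-expansion of the analytic `J`.
-/
import Mathlib
import Fermat.Prelude.Def_ModularCurve_X0
import Fermat.Agent.S23.Nice
import Fermat.Agent.S24.H6.PolyInJ
import Fermat.Agent.S24.H6.EtaProd

set_option autoImplicit false

noncomputable section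

namespace Fermat.Agent.S24.H6

open UpperHalfPlane ModularForm Filter Function Complex
open scoped MatrixGroups ModularForm Manifold Topology

open Fermat.Agent.S23 (Nice nice_of_modularForm)

local notation "𝕢" => Periodic.qParam

/-- The function `τ ↦ q(τ) = e^{2πiτ}` on the upper half-plane. -/
def qFun : ℍ → ℂ := fun τ => 𝕢 1 τ

theorem qFun_eq : qFun = pullQ id := rfl

theorem nice_qFun : Nice qFun := nice_pullQ differentiableOn_id

theorem qFun_ne_zero (τ : ℍ) : qFun τ ≠ 0 := Periodic.qParam_ne_zero _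

/-- The `q`-expansion of `q` is `X`. -/
theorem qExpansion_qFun : qExpansion 1 qFun = PowerSeries.X := by
  ext n
  rw [qFun_eq, qExpansion_pullQ_coeff continuousAt_id]
  have h1 : (id : ℂ → ℂ) = fun q => (Polynomial.X : Polynomial ℂ).eval q := by
    funext q
    simp
  rw [h1, iteratedDeriv_polynomial_zero, Polynomial.coeff_X, PowerSeries.coeff_X]
  have hn : (n.factorial : ℂ) ≠ 0 := by exact_mod_cast n.factorial_ne_zero
  by_cases h : n = 1
  · subst h
    simp
  · have h' : ¬ (1 = n) := fun h'' => h h''.symm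
    simp [h, h']

/-- The Euler product as a function on the upper half-plane. -/
def eulerH : ℍ → ℂ := pullQ eulerFun

theorem nice_eulerH : Nice eulerH := nice_pullQ differentiableOn_eulerFun

theorem qExpansion_eulerH :
    qExpansion 1 eulerH = ModularCurve.etaProd.map (Int.castRingHom ℂ) :=
  qExpansion_pullQ_eulerFun

/-- `Δ = q * (∏ (1 - q^n))^24`. -/
theorem discriminant_eq (τ : ℍ) : discriminant τ = qFun τ * eulerH τ ^ 24 := by
  rw [discriminant_eq_q_prod]
  have hq : ‖𝕢 1 (τ : ℂ)‖ < 1 := norm_qParam_lt_one τ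
  have h1 := (ModularForm.multipliable_one_sub_pow hq).tprod_pow 24
  simp only [eulerH, pullQ, eulerFun, qFun]
  rw [← h1]

theorem eulerH_ne_zero (τ : ℍ) : eulerH τ ≠ 0 := by
  intro h
  apply discriminant_ne_zero τ
  rw [discriminant_eq, h]
  simp

theorem eulerFun_zero : eulerFun 0 = 1 := by
  simp [eulerFun]

theorem tendsto_eulerH : Tendsto eulerH atImInfty (𝓝 1) := by
  have h1 : Tendsto (pullQ eulerFun) atImInfty (𝓝 (eulerFun 0)) :=
    continuousAt_eulerFun.tendsto.comp (qParam_tendsto_atImInfty one_pos)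
  rwa [eulerFun_zero] at h1

/-- **`q`-expansion of `Δ`**: `X * ∏ (1 - X^n)^24` (the Prelude's `X * dedekindEtaUnit`). -/
theorem qExpansion_discriminant :
    qExpansion 1 (discriminant : ℍ → ℂ) =
      PowerSeries.X * ModularCurve.dedekindEtaUnit.map (Int.castRingHom ℂ) := by
  have h1 : (discriminant : ℍ → ℂ) = qFun * eulerH ^ 24 := by
    funext τ
    exact discriminant_eq τ
  rw [h1, Nice.qExp_mul nice_qFun (nice_eulerH.pow 24), Nice.qExp_pow nice_eulerH,
    qExpansion_qFun, qExpansion_eulerH, ModularCurve.dedekindEtaUnit, map_pow]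

/-- **`q`-expansion of `E₄`**: `1 + 240 ∑ σ₃(n) X^n` (the Prelude's `eisenstein4`). -/
theorem qExpansion_E₄ :
    qExpansion 1 (E₄ : ℍ → ℂ) = ModularCurve.eisenstein4.map (Int.castRingHom ℂ) := by
  ext m
  rw [EisensteinSeries.E_qExpansion_coeff _ ⟨2, rfl⟩, PowerSeries.coeff_map,
    ModularCurve.eisenstein4, PowerSeries.coeff_mk]
  split_ifs with h
  · simp
  · rw [ArithmeticFunction.sigma_apply]
    norm_num [show bernoulli 4 = -1 / 30 by decide +kernel]

/-- The function `q * J`, which extends holomorphically over the cusp. -/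
def qJ : ℍ → ℂ := fun τ => qFun τ * kleinJ τ

theorem eulerH_pow_mul_qJ (τ : ℍ) : eulerH τ ^ 24 * qJ τ = E₄ τ ^ 3 := by
  have h1 := discriminant_mul_kleinJ τ
  rw [discriminant_eq] at h1
  rw [qJ, ← h1]
  ring

theorem qJ_eq (τ : ℍ) : qJ τ = E₄ τ ^ 3 / eulerH τ ^ 24 := by
  rw [eq_div_iff (pow_ne_zero 24 (eulerH_ne_zero τ)), mul_comm, eulerH_pow_mul_qJ]

theorem tendsto_qJ : Tendsto qJ atImInfty (𝓝 1) := by
  have h1 : Tendsto (fun τ : ℍ => E₄ τ ^ 3 / eulerH τ ^ 24) atImInfty (𝓝 (1 ^ 3 / 1 ^ 24)) :=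
    (Fermat.Agent.S20.H61.E₄_tendsto_one.pow 3).div (tendsto_eulerH.pow 24) (by norm_num)
  have h2 : (1 : ℂ) ^ 3 / 1 ^ 24 = 1 := by norm_num
  rw [h2] at h1
  exact h1.congr fun τ => (qJ_eq τ).symm

theorem periodic_kleinJ : Function.Periodic (kleinJ ∘ ofComplex) 1 := by
  have hE := (nice_of_modularForm one_mem_strictPeriods_SL E₄).per
  have hΔ := (nice_of_modularForm one_mem_strictPeriods_SL CuspForm.discriminant).per
  intro z
  have h1 := hE z
  have h2 := hΔ z
  simp only [Function.comp_apply] at h1 h2 ⊢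
  have h3 : (CuspForm.discriminant : ℍ → ℂ) = discriminant := rfl
  rw [h3] at h2
  rw [kleinJ, kleinJ, h1, h2]

theorem nice_qJ : Nice qJ where
  per := by
    intro z
    have h1 := nice_qFun.per z
    have h2 := periodic_kleinJ z
    simp only [Function.comp_apply, qJ] at h1 h2 ⊢
    rw [h1, h2]
  holo := nice_qFun.holo.mul mdiff_kleinJ
  bdd := tendsto_qJ.isBigO_one ℝ

/-- **`q`-expansion of `J`**: `q * J` has `q`-expansion `jNum`, i.e. the formal Laurent series
`jq = q⁻¹ * jNum` of the Prelude is the `q`-expansion of the analytic `J = E₄³/Δ`. -/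
theorem qExpansion_qJ : qExpansion 1 qJ = ModularCurve.jNum.map (Int.castRingHom ℂ) := by
  have h1 : eulerH ^ 24 * qJ = (E₄ : ℍ → ℂ) ^ 3 := by
    funext τ
    exact eulerH_pow_mul_qJ τ
  have h2 := congrArg (qExpansion 1) h1
  rw [Nice.qExp_mul (nice_eulerH.pow 24) nice_qJ, Nice.qExp_pow nice_eulerH,
    Nice.qExp_pow (nice_of_modularForm one_mem_strictPeriods_SL E₄), qExpansion_eulerH,
    qExpansion_E₄] at h2
  have h3 : (ModularCurve.dedekindEtaUnit * ModularCurve.dedekindEtaUnitInv).map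
      (Int.castRingHom ℂ) = 1 := by
    rw [ModularCurve.dedekindEtaUnit_mul_inv, map_one]
  rw [map_mul, ModularCurve.dedekindEtaUnit, map_pow] at h3
  rw [ModularCurve.jNum, map_mul, map_pow, ← h2]
  calc qExpansion 1 qJ = ((PowerSeries.map (Int.castRingHom ℂ)) ModularCurve.etaProd ^ 24 *
        (PowerSeries.map (Int.castRingHom ℂ)) ModularCurve.dedekindEtaUnitInv) *
        qExpansion 1 qJ := by rw [h3, one_mul]
    _ = _ := by ring

/-- Pointwise form: `q * J(τ) = ∑ c_n q^n` with `c_n` the coefficients of `jNum`. -/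
theorem hasSum_qJ (τ : ℍ) :
    HasSum (fun n : ℕ => ((PowerSeries.coeff n ModularCurve.jNum : ℤ) : ℂ) * 𝕢 1 τ ^ n)
      (𝕢 1 τ * kleinJ τ) := by
  have h := hasSum_qExpansion one_pos nice_qJ.per nice_qJ.holo nice_qJ.bdd τ
  rw [qExpansion_qJ] at h
  simpa [qJ, qFun, PowerSeries.coeff_map] using h

end Fermat.Agent.S24.H6
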