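/-
S24 (helper6), package AN-POLYJ, formal half: triangularity of the powers of the formal
`j`-series `jq = q⁻¹ + ⋯` (integer coefficients).  If `P(jq)` has all its coefficients in a
subring `S ⊆ ℂ`, then `P` has coefficients in `S`.  In particular a polynomial in `J` whose
expansion at `i∞` has `ℚ̄`-rational coefficients is defined over `ℚ̄`.
-/
import Mathlib
import Fermat.Prelude.Def_ModularCurve_JqCoeff
import Fermat.Prelude.Def_ModularCurve_LaurentCoeff
import Fermat.Prelude.Thm_ModularCurve_coeff_jqModC_pow_self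
import Fermat.Prelude.Thm_ModularCurve_coeff_jqModC_pow_of_lt

set_option autoImplicit false

noncomputable section

namespace Fermat.Agent.S24.H6

open ModularCurve Polynomial

/-- The coefficients of the powers of `jq` are integers, hence lie in every subring of `ℂ`. -/
theorem coeff_jqModC_pow_mem (S : Subring ℂ) (k : ℕ) (n : ℤ) :
    ((jqModC ℂ) ^ k).coeff n ∈ S := by
  have h1 : jqModC ℂ = coeffMap (Int.castRingHom ℂ) (jqModC ℤ) := jqModC_eq_map_intCast ℂ
  rw [h1, ← map_pow, coeffMap_coeff]
  exact intCast_mem S _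

theorem coeff_algebraMap_mul (c : ℂ) (x : LaurentSeries ℂ) (n : ℤ) :
    (algebraMap ℂ (LaurentSeries ℂ) c * x).coeff n = c * x.coeff n := by
  rw [algebraMap_laurentSeries_eq_single, HahnSeries.single_zero_mul_eq_smul]
  simp

/-- **Triangularity.** If all coefficients of `P(jq)` lie in the subring `S`, then so do the
coefficients of `P`. -/
theorem coeff_mem_of_aeval_jq (S : Subring ℂ) (M : ℕ) : ∀ P : Polynomial ℂ, P.natDegree ≤ M →
    (∀ n : ℤ, (aeval (jqModC ℂ) P).coeff n ∈ S) → ∀ k, P.coeff k ∈ S := by
  induction M with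
  | zero =>
    intro P hP h k
    have hP' : P = C (P.coeff 0) := eq_C_of_natDegree_le_zero hP
    have h0 := h 0
    rw [hP', aeval_C] at h0
    have h1 : (algebraMap ℂ (LaurentSeries ℂ) (P.coeff 0)).coeff 0 = P.coeff 0 := by
      rw [algebraMap_laurentSeries_eq_single]
      simp
    rw [h1] at h0
    rcases Nat.eq_zero_or_pos k with rfl | hk
    · exact h0
    · rw [hP', coeff_C, if_neg hk.ne']
      exact S.zero_mem
  | succ M ih =>
    intro P hP h k
    -- the leading coefficient
    have hlead : (aeval (jqModC ℂ) P).coeff (-((M + 1 : ℕ) : ℤ)) = P.coeff (M + 1) := by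
      rw [aeval_eq_sum_range' (Nat.lt_succ_of_le hP), HahnSeries.coeff_sum,
        Finset.sum_eq_single (M + 1)]
      · rw [Algebra.smul_def, coeff_algebraMap_mul, coeff_jqModC_pow_self, mul_one]
      · intro b hb hbne
        have hb' : b < M + 1 := lt_of_le_of_ne (Nat.lt_succ_iff.mp (Finset.mem_range.mp hb)) hbne
        rw [Algebra.smul_def, coeff_algebraMap_mul, coeff_jqModC_pow_of_lt ℂ (by omega),
          mul_zero]
      · intro hn
        exact absurd (Finset.mem_range.mpr (Nat.lt_succ_self _)) hn
    have hc : P.coeff (M + 1) ∈ S := hlead ▸ h _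
    set P' : Polynomial ℂ := P.erase (M + 1) with hP'
    have hP'deg : P'.natDegree ≤ M := by
      rw [natDegree_le_iff_coeff_eq_zero]
      intro n hn
      rw [hP', coeff_erase]
      split_ifs with h1
      · rfl
      · exact coeff_eq_zero_of_natDegree_lt (by omega)
    have hPP' : P = P' + C (P.coeff (M + 1)) * X ^ (M + 1) := by
      rw [hP', C_mul_X_pow_eq_monomial, add_comm, monomial_add_erase]
    have h' : ∀ n : ℤ, (aeval (jqModC ℂ) P').coeff n ∈ S := by
      intro n
      have h2 : aeval (jqModC ℂ) P' = aeval (jqModC ℂ) P -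
          algebraMap ℂ (LaurentSeries ℂ) (P.coeff (M + 1)) * (jqModC ℂ) ^ (M + 1) := by
        have h3 := congrArg (aeval (jqModC ℂ)) hPP'
        rw [map_add, map_mul, aeval_C, map_pow, aeval_X] at h3
        rw [h3, add_sub_cancel_right]
      rw [h2, HahnSeries.coeff_sub, coeff_algebraMap_mul]
      exact S.sub_mem (h n) (S.mul_mem hc (coeff_jqModC_pow_mem S _ _))
    have ih' := ih P' hP'deg h'
    by_cases hk : k = M + 1
    · rw [hk]
      exact hc
    · have h3 := ih' k
      rwa [hP', coeff_erase, if_neg hk] at h3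

/-- Rationality: if all coefficients of `P(jq)` lie in the range of a ring hom `ι : K →+* ℂ`,
then `P` comes from `K[X]`. -/
theorem exists_map_eq_of_aeval_jq {K : Type*} [CommRing K] (ι : K →+* ℂ) (P : Polynomial ℂ)
    (h : ∀ n : ℤ, (aeval (jqModC ℂ) P).coeff n ∈ ι.range) : ∃ r : Polynomial K, r.map ι = P := by
  have h1 := coeff_mem_of_aeval_jq ι.range P.natDegree P le_rfl h
  have h2 : P ∈ (Polynomial.mapRingHom ι).range := by
    rw [Polynomial.mem_map_range]
    exact h1
  obtain ⟨r, hr⟩ := h2
  exact ⟨r, hr⟩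

end Fermat.Agent.S24.H6
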