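/-
S24 (helper6), package AN-POLYJ / AN-SYM: rationality by triangularity in the exact shape of
the skeleton statement `exists_map_iota_of_aeval` of `Fermat/Agent/S24/Sym.lean`.
-/
import Fermat.Agent.S24.ModDefs
import Fermat.Agent.S24.H6.JTriangular

set_option autoImplicit false

noncomputable section

namespace Fermat.Agent.S24.H6

open ModularCurve Polynomial

/-- `qExpand` commutes with polynomial evaluation (it is a ring hom fixing the constants). -/
theorem aeval_qExpand (N : ℕ) [NeZero N] (R : Polynomial ℂ) (x : LaurentSeries ℂ) :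
    aeval (qExpand ℂ N x) R = qExpand ℂ N (aeval x R) := by
  rw [aeval_def, aeval_def, hom_eval₂]
  congr 1
  refine RingHom.ext fun c => ?_
  rw [RingHom.comp_apply, algebraMap_laurentSeries_eq_single]
  exact (qExpand_C N c).symm

/-- Rationality by triangularity (skeleton shape, any coefficient embedding). -/
theorem exists_map_of_aeval_qExpand {K : Type*} [CommRing K] (ι : K →+* ℂ) (N : ℕ) [NeZero N]
    (R : Polynomial ℂ) (L : LaurentSeries K)
    (h : aeval (qExpand ℂ N (jqModC ℂ)) R = coeffMap ι L) :
    ∃ r : Polynomial K, R = r.map ι := by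
  obtain ⟨r, hr⟩ := exists_map_eq_of_aeval_jq ι R (fun n => by
    have h1 := congrArg (fun x => x.coeff ((N : ℤ) * n)) h
    simp only [aeval_qExpand, qExpand_coeff_mul, coeffMap_coeff] at h1
    rw [h1]
    exact ⟨_, rfl⟩)
  exact ⟨r, hr.symm⟩

/-- Rationality by triangularity: the exact statement of `Sym.lean`. -/
theorem exists_map_iota_of_aeval (N : ℕ) [NeZero N] (R : Polynomial ℂ) (L : LaurentSeries Kbar)
    (h : Polynomial.aeval (qExpand ℂ N (jqModC ℂ)) R = coeffMap iota L) :
    ∃ r : Polynomial Kbar, R = r.map iota :=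
  exists_map_of_aeval_qExpand iota N R L h

end Fermat.Agent.S24.H6
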